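/-
S55 / T-layer leaf (helper115): explicit transfer in degrees 1 and 2.

For a subgroup `H ≤ G` of finite index `m` and a `G`-module `A`:
if a 1- (resp. 2-) cocycle on `G` restricts to a coboundary on `H`, then `m • f` is a coboundary
on `G`.  Everything is stated with Mathlib's elementary predicates
`groupCohomology.IsCocycle₁/₂`, `groupCohomology.IsCoboundary₁/₂`.
-/
import Mathlib

set_option autoImplicit false

open groupCohomology

namespace Fermat.Agent.S55.H115

variable {G A : Type*} [Group G] [AddCommGroup A] [DistribMulAction G A]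

/-- A 1-cochain on `G` restricts to a coboundary on the subgroup `H`. -/
def ResIsCoboundary₁ (H : Subgroup G) (f : G → A) : Prop :=
  ∃ a : A, ∀ h : G, h ∈ H → h • a - a = f h

/-- A 2-cochain on `G` restricts to a coboundary on the subgroup `H`. -/
def ResIsCoboundary₂ (H : Subgroup G) (f : G × G → A) : Prop :=
  ∃ u : G → A, ∀ h₁ h₂ : G, h₁ ∈ H → h₂ ∈ H → h₁ • u h₂ - u (h₁ * h₂) + u h₁ = f (h₁, h₂)

section reps

variable (H : Subgroup G)

/-- The chosen representative of the left coset `q`. -/
noncomputable def rep (q : G ⧸ H) : G := Quotient.out q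

lemma mk_rep (q : G ⧸ H) : ((rep H q : G) : G ⧸ H) = q := QuotientGroup.out_eq' q

/-- `hh s q = rep(s • q)⁻¹ * s * rep q ∈ H`. -/
noncomputable def hh (s : G) (q : G ⧸ H) : G := (rep H (s • q))⁻¹ * (s * rep H q)

lemma hh_mem (s : G) (q : G ⧸ H) : hh H s q ∈ H := by
  unfold hh
  rw [← QuotientGroup.eq, mk_rep]
  conv_lhs => rw [← mk_rep H q]
  rfl

lemma rep_mul_hh (s : G) (q : G ⧸ H) : rep H (s • q) * hh H s q = s * rep H q := by
  unfold hh; group

/-- representative of the coset of `t` -/
noncomputable def rr (t : G) : G := rep H (t : G ⧸ H)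

/-- `t = rr t * ht t` with `ht t ∈ H` -/
noncomputable def ht (t : G) : G := (rr H t)⁻¹ * t

lemma ht_mem (t : G) : ht H t ∈ H := by
  unfold ht rr
  rw [← QuotientGroup.eq, mk_rep]

lemma rr_mul_ht (t : G) : rr H t * ht H t = t := by
  unfold ht; group

lemma rr_eq (t : G) : rr H t = t * (ht H t)⁻¹ := by
  unfold ht; group

lemma rr_mul_mem (t : G) {h : G} (hh' : h ∈ H) : rr H (t * h) = rr H t := by
  unfold rr
  congr 1
  exact QuotientGroup.mk_mul_of_mem t hh'

lemma ht_mul_mem (t : G) {h : G} (hh' : h ∈ H) : ht H (t * h) = ht H t * h := by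
  unfold ht
  rw [rr_mul_mem H t hh']; group

end reps

section degree_one

variable (H : Subgroup G) [H.FiniteIndex]

/-- **Transfer argument in degree 1.** If a 1-cocycle on `G` restricts to a coboundary on a
subgroup `H` of finite index, then `[G:H] • f` is a coboundary. -/
theorem isCoboundary₁_index_nsmul {f : G → A} (hf : IsCocycle₁ f)
    (hres : ResIsCoboundary₁ H f) : IsCoboundary₁ (H.index • f) := by
  classical
  obtain ⟨a, ha⟩ := hres
  let _ : Fintype (G ⧸ H) := H.fintypeQuotientOfFiniteIndex
  -- the normalised cocycle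
  set c : G → A := fun g => f g - (g • a - a) with hc
  have hc_coc : ∀ g h : G, c (g * h) = g • c h + c g := by
    intro g h
    simp only [hc, hf g h, mul_smul, smul_sub]
    abel
  have hc_H : ∀ h ∈ H, c h = 0 := by
    intro h hh'
    simp only [hc, ha h hh', sub_self]
  have hc_mul : ∀ (g : G) (h : G), h ∈ H → c (g * h) = c g := by
    intro g h hh'
    rw [hc_coc, hc_H h hh', smul_zero, zero_add]
  set b : A := ∑ q : G ⧸ H, c (rep H q) with hb
  have key : ∀ s : G, b = s • b + H.index • c s := by
    intro s
    have h1 : ∑ q : G ⧸ H, c (s * rep H q) = b := by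
      have : ∀ q : G ⧸ H, c (s * rep H q) = c (rep H (s • q)) := by
        intro q
        rw [← rep_mul_hh H s q, hc_mul _ _ (hh_mem H s q)]
      simp only [this]
      exact Equiv.sum_comp (MulAction.toPerm s : Equiv.Perm (G ⧸ H)) (fun q => c (rep H q))
    have h2 : ∑ q : G ⧸ H, c (s * rep H q) = s • b + H.index • c s := by
      simp only [hc_coc, Finset.sum_add_distrib, Finset.sum_const, Finset.card_univ,
        hb, Finset.smul_sum]
      congr 2
      rw [Subgroup.index_eq_card, Nat.card_eq_fintype_card]
    exact h1.symm.trans h2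
  refine ⟨H.index • a - b, fun s => ?_⟩
  have hk := key s
  have hfs : f s = c s + (s • a - a) := by simp [hc]
  simp only [Pi.smul_apply, hfs, smul_add, smul_sub, smul_comm s (H.index) a]
  have : H.index • c s = b - s • b := by
    rw [eq_sub_iff_add_eq, add_comm]; exact hk.symm
  rw [this]; abel

end degree_one

section degree_two

variable (H : Subgroup G) [H.FiniteIndex]

/-- **Transfer argument in degree 2.** If a 2-cocycle on `G` restricts to a coboundary on a
subgroup `H` of finite index, then `[G:H] • f` is a coboundary. -/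
theorem isCoboundary₂_index_nsmul {f : G × G → A} (hf : IsCocycle₂ f)
    (hres : ResIsCoboundary₂ H f) : IsCoboundary₂ (H.index • f) := by
  classical
  obtain ⟨u, hu⟩ := hres
  let _ : Fintype (G ⧸ H) := H.fintypeQuotientOfFiniteIndex
  -- the correcting 0-cochain with values in the coinduced module
  set φ : G → A := fun t => f (rr H t, ht H t) - rr H t • u (ht H t) with hφ
  set F' : G → G → A := fun g t => f (t, g) - φ (t * g) + φ t with hF'
  -- (i) `d F' = ι ∘ f`
  have hi : ∀ g₁ g₂ t : G, F' g₂ (t * g₁) - F' (g₁ * g₂) t + F' g₁ t = t • f (g₁, g₂) := by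
    intro g₁ g₂ t
    have := hf t g₁ g₂
    simp only [hF', mul_assoc]
    linear_combination (norm := abel) this
  -- (ii) `F'` restricted to `H` takes values in `ι(A)`
  have hii : ∀ h ∈ H, ∀ t : G, F' h t = t • u h := by
    intro h hh' t
    have e1 : rr H (t * h) = rr H t := rr_mul_mem H t hh'
    have e2 : ht H (t * h) = ht H t * h := ht_mul_mem H t hh'
    have e3 := hf (rr H t) (ht H t) h
    have e4 := hu (ht H t) h (ht_mem H t) hh'
    have e5 : rr H t * ht H t = t := rr_mul_ht H t
    rw [e5] at e3
    have e6 : t • u h = rr H t • (ht H t • u h) := by rw [← mul_smul, e5]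
    have e7 : rr H t • f (ht H t, h)
        = rr H t • (ht H t • u h) - rr H t • u (ht H t * h) + rr H t • u (ht H t) := by
      rw [← e4, smul_add, smul_sub]
    simp only [hF', hφ, e1, e2]
    rw [e6]
    linear_combination (norm := abel) e3 + e7
  -- (iii) the averaging identity
  set B : G → A := fun t => ∑ q : G ⧸ H, F' (rep H q) t with hB
  set w : G → A := fun s => ∑ q : G ⧸ H,
    (f (s, rep H q) + rep H (s • q) • u (hh H s q) - f (rep H (s • q), hh H s q)) with hw
  have hiii : ∀ s t : G, H.index • F' s t - B t + B (t * s) = t • w s := by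
    intro s t
    have hq : ∀ q : G ⧸ H, F' (rep H q) (t * s) =
        t • (f (s, rep H q) + rep H (s • q) • u (hh H s q) - f (rep H (s • q), hh H s q))
          + F' (rep H (s • q)) t - F' s t := by
      intro q
      have a1 := hi s (rep H q) t
      have a2 := hi (rep H (s • q)) (hh H s q) t
      rw [rep_mul_hh] at a2
      have a3 := hii (hh H s q) (hh_mem H s q) (t * rep H (s • q))
      rw [a3, mul_smul] at a2
      simp only [smul_add, smul_sub]
      linear_combination (norm := abel) a1 - a2
    have hsum : ∑ q : G ⧸ H, F' (rep H (s • q)) t = B t :=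
      Equiv.sum_comp (MulAction.toPerm s : Equiv.Perm (G ⧸ H)) (fun q => F' (rep H q) t)
    have hcard : (Finset.univ : Finset (G ⧸ H)).card = H.index := by
      rw [Finset.card_univ, Subgroup.index_eq_card, Nat.card_eq_fintype_card]
    have : B (t * s) = t • w s + B t - H.index • F' s t := by
      simp only [hB]
      rw [Finset.sum_congr rfl (fun q _ => hq q)]
      rw [Finset.sum_sub_distrib, Finset.sum_add_distrib, hsum, Finset.sum_const, hcard,
        ← Finset.smul_sum]
    rw [this]; abel
  refine ⟨w, fun g₁ g₂ => ?_⟩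
  have b1 := hiii g₂ g₁
  have b2 := hiii (g₁ * g₂) 1
  have b3 := hiii g₁ 1
  have b4 := hi g₁ g₂ 1
  simp only [one_mul, one_smul] at b2 b3 b4
  have b5 : H.index • (F' g₂ g₁ - F' (g₁ * g₂) 1 + F' g₁ 1) = H.index • f (g₁, g₂) := by
    rw [b4]
  rw [smul_add, smul_sub] at b5
  simp only [Pi.smul_apply]
  linear_combination (norm := abel) b5 - b1 + b2 - b3

end degree_two

end Fermat.Agent.S55.H115
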