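/-
S55 / T-layer leaf (helper115): inflation–restriction in degree 2, elementary cocycle form.

If `N ⊴ G`, `H¹(N, A) = 0` and a 2-cocycle `f` on `G` restricts to a coboundary on `N`, then `f` is
cohomologous to a 2-cocycle inflated from `G ⧸ N` with values in `A^N`.
-/
import Fermat.Agent.S55.H115.Transfer

set_option autoImplicit false

open groupCohomology

namespace Fermat.Agent.S55.H115

variable {G A : Type*} [Group G] [AddCommGroup A] [DistribMulAction G A]

/-- The coboundary of a 1-cochain. -/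
def dOne (w : G → A) : G × G → A := fun p => p.1 • w p.2 - w (p.1 * p.2) + w p.1

@[simp] lemma dOne_apply (w : G → A) (g h : G) : dOne w (g, h) = g • w h - w (g * h) + w g := rfl

lemma dOne_add (w w' : G → A) : dOne (w + w') = dOne w + dOne w' := by
  funext ⟨g, h⟩; simp only [dOne_apply, Pi.add_apply, smul_add]; abel

lemma dOne_sub (w w' : G → A) : dOne (w - w') = dOne w - dOne w' := by
  funext ⟨g, h⟩; simp only [dOne_apply, Pi.sub_apply, smul_sub]; abel

lemma dOne_nsmul (m : ℕ) (w : G → A) : dOne (m • w) = m • dOne w := by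
  funext ⟨g, h⟩
  simp only [dOne_apply, Pi.smul_apply, smul_add, smul_sub, smul_comm g m]

lemma isCocycle₂_dOne (w : G → A) : IsCocycle₂ (dOne w) := by
  intro g h j
  simp only [dOne_apply, smul_add, smul_sub, mul_smul, mul_assoc]
  abel

lemma isCoboundary₂_iff {f : G × G → A} : IsCoboundary₂ f ↔ ∃ w : G → A, f = dOne w := by
  constructor
  · rintro ⟨x, hx⟩; exact ⟨x, funext fun ⟨g, h⟩ => (hx g h).symm⟩
  · rintro ⟨w, rfl⟩; exact ⟨w, fun g h => rfl⟩

lemma isCocycle₂_add {f f' : G × G → A} (hf : IsCocycle₂ f) (hf' : IsCocycle₂ f') :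
    IsCocycle₂ (f + f') := by
  intro g h j
  simp only [Pi.add_apply, smul_add]
  linear_combination (norm := abel) hf g h j + hf' g h j

lemma isCocycle₂_sub {f f' : G × G → A} (hf : IsCocycle₂ f) (hf' : IsCocycle₂ f') :
    IsCocycle₂ (f - f') := by
  intro g h j
  simp only [Pi.sub_apply, smul_sub]
  linear_combination (norm := abel) hf g h j - hf' g h j

lemma isCocycle₂_neg {f : G × G → A} (hf : IsCocycle₂ f) : IsCocycle₂ (-f) := by
  intro g h j
  simp only [Pi.neg_apply, smul_neg]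
  linear_combination (norm := abel) - hf g h j

lemma isCocycle₂_nsmul {f : G × G → A} (hf : IsCocycle₂ f) (m : ℕ) : IsCocycle₂ (m • f) := by
  intro g h j
  simp only [Pi.smul_apply, smul_comm g m, ← smul_add, hf g h j]

lemma isCocycle₂_zero : IsCocycle₂ (0 : G × G → A) := by
  intro g h j; simp

/-- `H¹(N, A) = 0`, elementary form (functions on the subgroup type). -/
def H1Vanishes (N : Subgroup G) (A : Type*) [AddCommGroup A] [DistribMulAction G A] : Prop :=
  ∀ c : N → A, IsCocycle₁ c → IsCoboundary₁ c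

/-- A 2-cochain on `G` is inflated from `G ⧸ N` with values in `A^N`. -/
structure IsInflated₂ (N : Subgroup G) (f : G × G → A) : Prop where
  left : ∀ g h n : G, n ∈ N → f (g * n, h) = f (g, h)
  right : ∀ g h n : G, n ∈ N → f (g, h * n) = f (g, h)
  fixed : ∀ g h n : G, n ∈ N → n • f (g, h) = f (g, h)

/-- A 1-cochain on `G` is inflated from `G ⧸ N` with values in `A^N`. -/
structure IsInflated₁ (N : Subgroup G) (w : G → A) : Prop where
  right : ∀ g n : G, n ∈ N → w (g * n) = w g
  fixed : ∀ g n : G, n ∈ N → n • w g = w g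

section

variable (N : Subgroup G) [hn : N.Normal]

include hn in
omit [AddCommGroup A] [DistribMulAction G A] in
lemma conj_mem' {n : G} (hn' : n ∈ N) (h : G) : h⁻¹ * n * h ∈ N := by
  have := hn.conj_mem n hn' h⁻¹
  simpa using this

/-- Key normalisation step: a 2-cocycle vanishing on `G × N` and on `N × G` is inflated. -/
lemma isInflated₂_of_vanish {f : G × G → A} (hf : IsCocycle₂ f)
    (h1 : ∀ g n : G, n ∈ N → f (g, n) = 0) (h2 : ∀ n h : G, n ∈ N → f (n, h) = 0) :
    IsInflated₂ N f := by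
  have hr : ∀ g h n : G, n ∈ N → f (g, h * n) = f (g, h) := by
    intro g h n hn'
    have := hf g h n
    rw [h1 (g * h) n hn', h1 h n hn', smul_zero] at this
    linear_combination (norm := abel) - this
  have hl : ∀ g h n : G, n ∈ N → f (g * n, h) = f (g, h) := by
    intro g h n hn'
    have := hf g n h
    rw [h1 g n hn', h2 n h hn', smul_zero] at this
    have e : n * h = h * (h⁻¹ * n * h) := by group
    rw [e, hr g h _ (conj_mem' N hn' h)] at this
    linear_combination (norm := abel) this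
  refine ⟨hl, hr, ?_⟩
  intro g h n hn'
  have := hf n g h
  rw [h2 n g hn', h2 n (g * h) hn'] at this
  have e : n * g = g * (g⁻¹ * n * g) := by group
  rw [e, hl g h _ (conj_mem' N hn' g)] at this
  linear_combination (norm := abel) - this

/-- **Inflation–restriction in degree 2** (exactness in the middle), elementary form. -/
theorem exists_isInflated₂_sub_dOne (hN : H1Vanishes N A) {f : G × G → A} (hf : IsCocycle₂ f)
    (hres : ResIsCoboundary₂ N f) : ∃ w : G → A, IsInflated₂ N (f - dOne w) := by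
  classical
  obtain ⟨u, hu⟩ := hres
  -- Step 1: kill `f` on `N × N`.
  set f₁ : G × G → A := f - dOne u with hf₁
  have hf₁c : IsCocycle₂ f₁ := isCocycle₂_sub hf (isCocycle₂_dOne u)
  have hf₁N : ∀ n₁ n₂ : G, n₁ ∈ N → n₂ ∈ N → f₁ (n₁, n₂) = 0 := by
    intro n₁ n₂ h₁ h₂
    simp only [hf₁, Pi.sub_apply, dOne_apply, hu n₁ n₂ h₁ h₂, sub_self]
  -- Step 2: kill it on `G × N`.
  set w₁ : G → A := fun g => f₁ (rr N g, ht N g) with hw₁
  set f₂ : G × G → A := f₁ + dOne w₁ with hf₂
  have hf₂c : IsCocycle₂ f₂ := isCocycle₂_add hf₁c (isCocycle₂_dOne w₁)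
  have rr_mem : ∀ n : G, n ∈ N → rr N n ∈ N := by
    intro n hn'
    have h2 := ht_mem N n
    rw [rr_eq N n]; exact N.mul_mem hn' (N.inv_mem h2)
  have hw₁N : ∀ n : G, n ∈ N → w₁ n = 0 := by
    intro n hn'
    exact hf₁N _ _ (rr_mem n hn') (ht_mem N n)
  have hf₂GN : ∀ g n : G, n ∈ N → f₂ (g, n) = 0 := by
    intro g n hn'
    have e1 := hf₁c (rr N g) (ht N g) n
    rw [rr_mul_ht, hf₁N _ _ (ht_mem N g) hn', smul_zero] at e1
    have e2 : w₁ (g * n) = f₁ (rr N g, ht N g * n) := by
      simp only [hw₁, rr_mul_mem N g hn', ht_mul_mem N g hn']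
    simp only [hf₂, Pi.add_apply, dOne_apply, hw₁N n hn', smul_zero, e2]
    have e3 : w₁ g = f₁ (rr N g, ht N g) := rfl
    rw [e3]
    linear_combination (norm := abel) e1
  have hf₂NN : ∀ n₁ n₂ : G, n₁ ∈ N → n₂ ∈ N → f₂ (n₁, n₂) = 0 :=
    fun n₁ n₂ _ h₂ => hf₂GN n₁ n₂ h₂
  have hf₂r : ∀ g h n : G, n ∈ N → f₂ (g, h * n) = f₂ (g, h) := by
    intro g h n hn'
    have := hf₂c g h n
    rw [hf₂GN (g * h) n hn', hf₂GN h n hn', smul_zero] at this
    linear_combination (norm := abel) - this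
  -- Step 3: for each `h`, `n ↦ f₂ (n, h)` is a 1-cocycle on `N`.
  have hcoc : ∀ h : G, IsCocycle₁ (fun n : N => f₂ ((n : G), h)) := by
    intro h n₁ n₂
    have := hf₂c (n₁ : G) (n₂ : G) h
    rw [hf₂NN _ _ n₁.2 n₂.2] at this
    have e : (n₂ : G) * h = h * (h⁻¹ * n₂ * h) := by group
    rw [e, hf₂r _ h _ (conj_mem' N n₂.2 h)] at this
    show f₂ (((n₁ * n₂ : N) : G), h) = n₁ • f₂ ((n₂ : G), h) + f₂ ((n₁ : G), h)
    rw [Subgroup.coe_mul]
    have e' : n₁ • f₂ ((n₂ : G), h) = (n₁ : G) • f₂ ((n₂ : G), h) := rfl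
    rw [e']
    linear_combination (norm := abel) this
  choose α hα using fun h : G => hN _ (hcoc h)
  have hα' : ∀ (h n : G), n ∈ N → n • α h - α h = f₂ (n, h) := by
    intro h n hn'
    exact hα h ⟨n, hn'⟩
  set a : G → A := fun h => α (rr N h) - α (rr N 1) with ha
  have ha_r : ∀ h n : G, n ∈ N → a (h * n) = a h := by
    intro h n hn'
    simp only [ha, rr_mul_mem N h hn']
  have ha_N : ∀ n : G, n ∈ N → a n = 0 := by
    intro n hn'
    have : rr N n = rr N 1 := by
      have := rr_mul_mem N 1 hn'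
      rwa [one_mul] at this
    simp only [ha, this, sub_self]
  have ha_d : ∀ h n : G, n ∈ N → n • a h - a h = f₂ (n, h) := by
    intro h n hn'
    have e1 := hα' (rr N h) n hn'
    have e2 := hα' (rr N 1) n hn'
    have e3 : f₂ (n, rr N 1) = 0 := hf₂GN n _ (rr_mem 1 N.one_mem)
    have e4 : f₂ (n, rr N h) = f₂ (n, h) := by
      rw [rr_eq N h, hf₂r n h _ (N.inv_mem (ht_mem N h))]
    rw [e3] at e2
    rw [e4] at e1
    simp only [ha, smul_sub]
    linear_combination (norm := abel) e1 - e2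
  -- Step 4
  set f₃ : G × G → A := f₂ - dOne a with hf₃
  have hf₃c : IsCocycle₂ f₃ := isCocycle₂_sub hf₂c (isCocycle₂_dOne a)
  have h3GN : ∀ g n : G, n ∈ N → f₃ (g, n) = 0 := by
    intro g n hn'
    simp only [hf₃, Pi.sub_apply, dOne_apply, hf₂GN g n hn', ha_N n hn', ha_r g n hn', smul_zero]
    abel
  have h3NG : ∀ n h : G, n ∈ N → f₃ (n, h) = 0 := by
    intro n h hn'
    have e : n * h = h * (h⁻¹ * n * h) := by group
    have e1 : a (n * h) = a h := by rw [e, ha_r h _ (conj_mem' N hn' h)]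
    simp only [hf₃, Pi.sub_apply, dOne_apply, e1, ha_N n hn']
    linear_combination (norm := abel) - ha_d h n hn'
  refine ⟨u - w₁ + a, ?_⟩
  have : f - dOne (u - w₁ + a) = f₃ := by
    rw [dOne_add, dOne_sub, hf₃, hf₂, hf₁]; abel
  rw [this]
  exact isInflated₂_of_vanish N hf₃c h3GN h3NG

end

end Fermat.Agent.S55.H115
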